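import Fermat.Agent.Two.NormIndex.Units
import Mathlib.NumberTheory.RamificationInertia.Galois
import Mathlib.RepresentationTheory.Homological.GroupCohomology.Hilbert90
import Mathlib.RingTheory.ClassGroup.ExtendedHom
import Mathlib.RingTheory.Ideal.Norm.RelNorm

/-!
The ideal lemmas: fixed ideals in an everywhere unramified Galois extension are extended, and
Hilbert 90 turns a principal relation between an ideal and its conjugate into a fixed ideal.
-/

set_option autoImplicit false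

noncomputable section

namespace Fermat.Agent.Two.NormIndex

open NumberField Pointwise
open scoped NumberField nonZeroDivisors

variable {K M : Type} [Field K] [NumberField K] [Field M] [NumberField M] [Algebra K M]
  [IsGalois K M]

/-- Unramified at every finite prime. -/
def Unramified (K M : Type) [Field K] [Field M] [Algebra K M] : Prop :=
  ∀ p : Ideal (𝓞 K), p.IsMaximal → p.ramificationIdxIn (𝓞 M) = 1

omit [NumberField K] [NumberField M] [IsGalois K M] in
theorem smul_span_singleton (σ : M ≃ₐ[K] M) (x : 𝓞 M) :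
    σ • Ideal.span {x} = Ideal.span {σ • x} := by
  rw [Ideal.pointwise_smul_def, Ideal.map_span, Set.image_singleton]
  rfl

theorem smul_map (σ : M ≃ₐ[K] M) (J : Ideal (𝓞 K)) :
    σ • J.map (algebraMap (𝓞 K) (𝓞 M)) = J.map (algebraMap (𝓞 K) (𝓞 M)) := by
  rw [Ideal.pointwise_smul_def, Ideal.map_map]
  congr 1
  exact RingHom.ext fun x => smul_algebraMap σ x

/-- Fixed ideals are extended. -/
theorem exists_map_eq (hu : Unramified K M) (I : Ideal (𝓞 M))
    (hI : ∀ σ : M ≃ₐ[K] M, σ • I = I) : I ≠ ⊥ →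
    ∃ J : Ideal (𝓞 K), J.map (algebraMap (𝓞 K) (𝓞 M)) = I := by
  classical
  induction I using IsNoetherian.induction with
  | _ I ih =>
    intro h0
    by_cases ht : I = ⊤
    · exact ⟨⊤, ht ▸ Ideal.map_top _⟩
    obtain ⟨P, hP, hIP⟩ := Ideal.exists_le_maximal I ht
    set p := P.under (𝓞 K)
    have : p.IsMaximal := Ideal.IsMaximal.under (𝓞 K) P
    have : P.LiesOver p := ⟨rfl⟩
    have hP0 : P ≠ ⊥ := fun h => h0 (eq_bot_iff.2 (h ▸ hIP))
    have hp0 : p ≠ ⊥ := fun h => hP0 (Ideal.eq_bot_of_comap_eq_bot h)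
    have hdvd : p.map (algebraMap (𝓞 K) (𝓞 M)) ∣ I := by
      rw [Ideal.map_algebraMap_eq_finsetProd_pow hp0]
      refine Finset.prod_dvd_of_coprime (fun Q hQ Q' hQ' hne => ?_) fun Q hQ => ?_
      · rw [Finset.mem_coe, Set.mem_toFinset] at hQ hQ'
        have : Q.IsPrime := hQ.1
        have : Q.LiesOver p := hQ.2
        have : Q'.IsPrime := hQ'.1
        have : Q'.LiesOver p := hQ'.2
        have hQm : Q.IsMaximal := Ideal.IsMaximal.of_liesOver_isMaximal Q p
        have hQ'm : Q'.IsMaximal := Ideal.IsMaximal.of_liesOver_isMaximal Q' p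
        exact ((Ideal.isCoprime_iff_sup_eq).2 (hQm.coprime_of_ne hQ'm hne)).pow
      · rw [Set.mem_toFinset] at hQ
        have : Q.IsPrime := hQ.1
        have : Q.LiesOver p := hQ.2
        rw [← Ideal.ramificationIdxIn_eq_ramificationIdx p Q (M ≃ₐ[K] M), hu p inferInstance,
          pow_one, Ideal.dvd_iff_le]
        obtain ⟨σ, rfl⟩ := Ideal.exists_smul_eq_of_isGaloisGroup p P Q (M ≃ₐ[K] M)
        rw [← hI σ, Ideal.pointwise_smul_def, Ideal.pointwise_smul_def]
        exact Ideal.map_mono hIP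
    obtain ⟨I', hI'⟩ := hdvd
    have hmap0 : p.map (algebraMap (𝓞 K) (𝓞 M)) ≠ ⊥ := fun h => h0 (by rw [hI', h, Ideal.bot_mul])
    have hI'0 : I' ≠ ⊥ := fun h => h0 (by rw [hI', h, Ideal.mul_bot])
    have hfix : ∀ σ : M ≃ₐ[K] M, σ • I' = I' := fun σ => by
      have h := hI σ
      rw [hI', smul_mul', smul_map] at h
      exact mul_left_cancel₀ hmap0 h
    have hlt : I < I' := lt_of_le_of_ne (by rw [hI']; exact Ideal.mul_le_right) fun h => by
      have h1 : p.map (algebraMap (𝓞 K) (𝓞 M)) * I' = 1 * I' := by rw [← hI', h, one_mul]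
      have h2 := mul_right_cancel₀ hI'0 h1
      rw [Ideal.one_eq_top] at h2
      exact hP.ne_top (top_le_iff.1 (h2 ▸ Ideal.map_comap_le))
    obtain ⟨J, hJ⟩ := ih I' hlt hfix hI'0
    exact ⟨p * J, by rw [Ideal.map_mul, hJ, hI']⟩

/-- The product of the conjugates of an integer. -/
def normO (K : Type) [Field K] [Algebra K M] [FiniteDimensional K M] (x : 𝓞 M) : 𝓞 M :=
  ∏ σ : M ≃ₐ[K] M, σ • x

omit [IsGalois K M] in
theorem normO_mul (x y : 𝓞 M) : normO K (x * y) = normO K x * normO K y := by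
  simp [normO, smul_mul', Finset.prod_mul_distrib]

omit [IsGalois K M] in
theorem normO_ne_zero {x : 𝓞 M} (hx : x ≠ 0) : normO K x ≠ 0 :=
  Finset.prod_ne_zero_iff.2 fun _ _ => (smul_ne_zero_iff_ne _).2 hx

omit [IsGalois K M] in
theorem smul_normO (σ : M ≃ₐ[K] M) (x : 𝓞 M) : σ • normO K x = normO K x := by
  rw [normO, Finset.smul_prod']
  refine Fintype.prod_equiv (Equiv.mulLeft σ) _ _ fun τ => ?_
  rw [smul_smul]
  rfl

omit [IsGalois K M] in
theorem normO_smul (σ : M ≃ₐ[K] M) (x : 𝓞 M) : normO K (σ • x) = normO K x := by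
  refine Fintype.prod_equiv (Equiv.mulRight σ) _ _ fun τ => ?_
  rw [smul_smul]
  rfl

omit [IsGalois K M] in
theorem normO_unit (u : (𝓞 M)ˣ) : normO K (u : 𝓞 M) = ((normU K M u : (𝓞 M)ˣ) : 𝓞 M) := by
  rw [normU_apply, Units.coe_prod]
  rfl

theorem coe_normO (x : 𝓞 M) :
    (normO K x : M) = algebraMap K M (Algebra.norm K (x : M)) := by
  rw [Algebra.norm_eq_prod_automorphisms, normO, RingOfIntegers.coe_eq_algebraMap, map_prod]
  rfl

/-- Hilbert 90 for integers. -/
theorem exists_eq_div {g : M ≃ₐ[K] M} (hg : ∀ σ, σ ∈ Subgroup.zpowers g) {x y : 𝓞 M}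
    (hx : x ≠ 0) (hN : normO K y = normO K x) : ∃ b : 𝓞 M, b ≠ 0 ∧ y * b = x * g • b := by
  classical
  have : IsCyclic (M ≃ₐ[K] M) := ⟨⟨g, hg⟩⟩
  have hy : y ≠ 0 := fun h => normO_ne_zero hx (by
    rw [← hN, h, normO, Finset.prod_eq_zero (Finset.mem_univ (1 : M ≃ₐ[K] M)) (smul_zero _)])
  have hxM : (x : M) ≠ 0 := RingOfIntegers.coe_ne_zero_iff.2 hx
  have hyM : (y : M) ≠ 0 := RingOfIntegers.coe_ne_zero_iff.2 hy
  have hn : Algebra.norm K ((x : M) / y) = 1 := by
    apply (algebraMap K M).injective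
    rw [div_eq_mul_inv, map_mul, Algebra.norm_inv, map_mul, map_inv₀, ← coe_normO, ← coe_normO, hN,
      map_one, ← div_eq_mul_inv,
      div_self (RingOfIntegers.coe_ne_zero_iff.2 (normO_ne_zero hx))]
  obtain ⟨Y, hY⟩ := groupCohomology.exists_div_of_norm_eq_one hg hn
  obtain ⟨p, q, hq, hpq⟩ := IsFractionRing.div_surjective (A := 𝓞 M) (Y : M)
  have hq0 : q ≠ 0 := nonZeroDivisors.ne_zero hq
  set c := ∏ σ ∈ (Finset.univ : Finset (M ≃ₐ[K] M)).erase 1, σ • q
  have hc : q * c = normO K q := by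
    rw [normO, ← Finset.mul_prod_erase _ _ (Finset.mem_univ (1 : M ≃ₐ[K] M)), one_smul]
  have hqM : (q : M) ≠ 0 := RingOfIntegers.coe_ne_zero_iff.2 hq0
  have hb : (((p * c : 𝓞 M)) : M) = (Y : M) * (normO K q : M) := by
    rw [← hc, ← hpq]
    simp only [RingOfIntegers.coe_eq_algebraMap, map_mul] at hqM ⊢
    field_simp
  refine ⟨p * c, fun h => ?_, RingOfIntegers.ext ?_⟩
  · rw [h] at hb
    exact mul_ne_zero Y.ne_zero (RingOfIntegers.coe_ne_zero_iff.2 (normO_ne_zero hq0))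
      (hb.symm.trans (map_zero _))
  · have hg' : ((g • (p * c) : 𝓞 M) : M) = g (Y : M) * (normO K q : M) := by
      show g ((p * c : 𝓞 M) : M) = _
      rw [hb, map_mul]
      exact congrArg _ (congrArg RingOfIntegers.val (smul_normO g q))
    have hgY : g (Y : M) ≠ 0 := (map_ne_zero _).2 Y.ne_zero
    have e : ∀ s t : 𝓞 M, ((s * t : 𝓞 M) : M) = (s : M) * (t : M) := fun s t =>
      map_mul (algebraMap (𝓞 M) M) s t
    show ((y * (p * c) : 𝓞 M) : M) = ((x * g • (p * c) : 𝓞 M) : M)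
    rw [e y (p * c), e x (g • (p * c)), hb, hg']
    field_simp at hY
    linear_combination (normO K q : M) * hY

/-- A relation `x gJ = y J` with `N y = N x` makes the class of `J` an extended one. -/
theorem mk0_mem_range {g : M ≃ₐ[K] M} (hg : ∀ σ, σ ∈ Subgroup.zpowers g) (hu : Unramified K M)
    {x y : 𝓞 M} (hx : x ≠ 0) (hN : normO K y = normO K x) (J : (Ideal (𝓞 M))⁰)
    (h : Ideal.span {x} * g • (J : Ideal (𝓞 M)) = Ideal.span {y} * (J : Ideal (𝓞 M))) :
    ClassGroup.mk0 J ∈ (ClassGroup.extendedHom (𝓞 K) (𝓞 M)).range := by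
  classical
  obtain ⟨b, hb, hyb⟩ := exists_eq_div hg hx hN
  set w := ∏ σ ∈ (Finset.univ : Finset (M ≃ₐ[K] M)).erase 1, σ • b
  have hw : b * w = normO K b := by
    rw [normO, ← Finset.mul_prod_erase _ _ (Finset.mem_univ (1 : M ≃ₐ[K] M)), one_smul]
  have hw0 : w ≠ 0 := fun h' => normO_ne_zero hb (by rw [← hw, h', mul_zero])
  have hJ0 : (J : Ideal (𝓞 M)) ≠ ⊥ := nonZeroDivisors.ne_zero J.2
  set I := (J : Ideal (𝓞 M)) * Ideal.span {w}
  have hsx : Ideal.span {x} ≠ (⊥ : Ideal (𝓞 M)) := by simpa using hx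
  have hsb : Ideal.span {b} ≠ (⊥ : Ideal (𝓞 M)) := by simpa using hb
  have hrel : g • (J : Ideal (𝓞 M)) * Ideal.span {b} =
      Ideal.span {g • b} * (J : Ideal (𝓞 M)) := by
    apply mul_left_cancel₀ hsx
    rw [← mul_assoc, h, ← mul_assoc, mul_right_comm, Ideal.span_singleton_mul_span_singleton,
      Ideal.span_singleton_mul_span_singleton, hyb]
  have hgI : g • I = I := by
    apply mul_right_cancel₀ hsb
    have hgw : g • b * g • w = b * w := by rw [← smul_mul', hw, smul_normO]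
    simp only [I]
    rw [smul_mul', smul_span_singleton, mul_right_comm, hrel, mul_comm (Ideal.span {g • b}) _,
      mul_assoc, Ideal.span_singleton_mul_span_singleton, hgw, mul_assoc,
      Ideal.span_singleton_mul_span_singleton, mul_comm w b]
  have hfix : ∀ σ : M ≃ₐ[K] M, σ • I = I := fun σ =>
    (Subgroup.zpowers_le.2 (show g ∈ MulAction.stabilizer (M ≃ₐ[K] M) I from hgI)) (hg σ)
  have hI0 : I ≠ ⊥ := mul_ne_zero hJ0 (by simpa using hw0)
  obtain ⟨J', hJ'⟩ := exists_map_eq hu I hfix hI0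
  have hJ'0 : J' ≠ ⊥ := fun h' => hI0 (by rw [← hJ', h', Ideal.map_bot])
  refine ⟨ClassGroup.mk0 ⟨J', mem_nonZeroDivisors_of_ne_zero hJ'0⟩, ?_⟩
  rw [ClassGroup.extendedHom_mk0]
  refine ClassGroup.mk0_eq_mk0_iff.2 ⟨1, w, one_ne_zero, hw0, ?_⟩
  show Ideal.span {1} * J'.map (algebraMap (𝓞 K) (𝓞 M)) =
    Ideal.span {w} * (J : Ideal (𝓞 M))
  rw [hJ', Ideal.span_singleton_one, Ideal.top_mul, mul_comm]

end Fermat.Agent.Two.NormIndex

end
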