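import Fermat.Agent.Two.NormIndex.Ideals
import Mathlib.NumberTheory.NumberField.ClassNumber

/-!
In a cyclic extension `M / K` unramified at every finite prime, `K` having one infinite place and
that one complex, the norms of ideal classes have index at least the degree.
-/

set_option autoImplicit false

noncomputable section

namespace Fermat.Agent.Two.NormIndex

open NumberField Pointwise
open Fermat.Agent.CFT.Idele
open scoped NumberField nonZeroDivisors

/-- A multiplicative map of ideals preserving principal and nonzero ideals gives a map of class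
groups. -/
theorem exists_clMap {R S : Type*} [CommRing R] [IsDedekindDomain R] [CommRing S]
    [IsDedekindDomain S] (φ : Ideal S →* Ideal R) (h0 : ∀ I, I ≠ ⊥ → φ I ≠ ⊥)
    (hp : ∀ x : S, x ≠ 0 → ∃ z : R, z ≠ 0 ∧ φ (Ideal.span {x}) = Ideal.span {z}) :
    ∃ f : ClassGroup S →* ClassGroup R, ∀ I : (Ideal S)⁰,
      f (ClassGroup.mk0 I) = ClassGroup.mk0
        ⟨φ I, mem_nonZeroDivisors_of_ne_zero (h0 _ (nonZeroDivisors.ne_zero I.2))⟩ := by
  let ψ : (Ideal S)⁰ → (Ideal R)⁰ := fun I =>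
    ⟨φ I, mem_nonZeroDivisors_of_ne_zero (h0 _ (nonZeroDivisors.ne_zero I.2))⟩
  have hwd : ∀ I J, ClassGroup.mk0 I = ClassGroup.mk0 J →
      ClassGroup.mk0 (ψ I) = ClassGroup.mk0 (ψ J) := fun I J h => by
    obtain ⟨x, y, hx, hy, e⟩ := ClassGroup.mk0_eq_mk0_iff.1 h
    obtain ⟨z, hz, hzx⟩ := hp x hx
    obtain ⟨z', hz', hzy⟩ := hp y hy
    refine ClassGroup.mk0_eq_mk0_iff.2 ⟨z, z', hz, hz', ?_⟩
    show Ideal.span {z} * φ I = Ideal.span {z'} * φ J
    rw [← hzx, ← hzy, ← map_mul, ← map_mul, e]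
  refine ⟨MonoidHom.mk' (fun c => ClassGroup.mk0 (ψ (Function.surjInv ClassGroup.mk0_surjective c)))
    fun c c' => ?_, fun I => ?_⟩
  · rw [← map_mul]
    refine (hwd _ (Function.surjInv ClassGroup.mk0_surjective c *
      Function.surjInv ClassGroup.mk0_surjective c') ?_).trans (congrArg _ (Subtype.ext ?_))
    · simp only [map_mul, Function.surjInv_eq]
    · exact map_mul φ _ _
  · exact hwd _ _ (Function.surjInv_eq ClassGroup.mk0_surjective _)

variable (K M : Type) [Field K] [NumberField K] [Field M] [NumberField M] [Algebra K M]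

theorem exists_relNorm_span (x : 𝓞 M) (hx : x ≠ 0) : ∃ z : 𝓞 K, z ≠ 0 ∧
    Ideal.relNorm (𝓞 K) (Ideal.span {x}) = Ideal.span {z} :=
  ⟨_, Algebra.intNorm_ne_zero.2 hx, Ideal.relNorm_singleton _ _⟩

theorem relNorm_ne_bot (I : Ideal (𝓞 M)) (hI : I ≠ ⊥) : Ideal.relNorm (𝓞 K) I ≠ ⊥ :=
  fun h => hI (Ideal.relNorm_eq_bot_iff.1 h)

/-- The norm of ideal classes. -/
def clNorm : ClassGroup (𝓞 M) →* ClassGroup (𝓞 K) :=
  (exists_clMap (Ideal.relNorm (𝓞 K) (S := 𝓞 M)).toMonoidHom (relNorm_ne_bot K M)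
    (exists_relNorm_span K M)).choose

theorem clNorm_mk0 (I : (Ideal (𝓞 M))⁰) :
    clNorm K M (ClassGroup.mk0 I) = ClassGroup.mk0 ⟨Ideal.relNorm (𝓞 K) (I : Ideal (𝓞 M)),
      mem_nonZeroDivisors_of_ne_zero (relNorm_ne_bot K M _ (nonZeroDivisors.ne_zero I.2))⟩ :=
  (exists_clMap (Ideal.relNorm (𝓞 K) (S := 𝓞 M)).toMonoidHom (relNorm_ne_bot K M)
    (exists_relNorm_span K M)).choose_spec I

variable {K M}

theorem span_normO (x : 𝓞 M) :
    ∏ σ : M ≃ₐ[K] M, σ • Ideal.span {x} = Ideal.span {normO K x} := by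
  simp only [normO, smul_span_singleton, Ideal.prod_span_singleton]

variable [IsGalois K M] [IsTotallyComplex K] [Subsingleton (InfinitePlace K)]
  [IsCyclic (M ≃ₐ[K] M)]

/-- The norm index is at least the degree. -/
theorem card_le_index (hu : Unramified K M) :
    Nat.card (M ≃ₐ[K] M) ≤ (clNorm K M).range.index := by
  classical
  obtain ⟨g, hg⟩ := IsCyclic.exists_generator (α := M ≃ₐ[K] M)
  let ι := ClassGroup.extendedHom (𝓞 K) (𝓞 M)
  set d := delta K M g
  set N := normU K M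
  obtain ⟨τ, hτ⟩ := exists_clMap (MulDistribMulAction.toMonoidHom (Ideal (𝓞 M)) g)
    (fun I hI h => hI ((smul_left_cancel g (h.trans (Ideal.map_bot
      (f := MulSemiringAction.toRingHom (M ≃ₐ[K] M) (𝓞 M) g)).symm))))
    (fun x hx => ⟨g • x, (smul_ne_zero_iff_ne g).2 hx, smul_span_singleton g x⟩)
  set δ := τ / MonoidHom.id (ClassGroup (𝓞 M)) with hδ
  -- the norm factors through the coinvariants
  have h1 : Nat.card (clNorm K M).range ≤ Nat.card δ.ker := by
    have hle : δ.range ≤ (clNorm K M).ker := by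
      rintro _ ⟨c, rfl⟩
      obtain ⟨I, rfl⟩ := ClassGroup.mk0_surjective c
      rw [MonoidHom.mem_ker, hδ, MonoidHom.div_apply, map_div, hτ, MonoidHom.id_apply, clNorm_mk0,
        clNorm_mk0, div_eq_one]
      exact congrArg _ (Subtype.ext (Ideal.relNorm_smul (𝓞 K) g (I : Ideal (𝓞 M))))
    rw [← Subgroup.index_ker]
    refine le_trans (Nat.le_of_dvd (Nat.pos_of_ne_zero Subgroup.index_ne_zero_of_finite)
      (Subgroup.index_dvd_of_le hle)) (le_of_eq ?_)
    have e1 := Subgroup.card_mul_index δ.ker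
    rw [Subgroup.index_ker, ← Subgroup.card_mul_index δ.range, mul_comm] at e1
    exact (mul_left_cancel₀ Nat.card_pos.ne' e1).symm
  -- units of norm one give classes capitulating in `M`
  have h3 : ind0 N d ≤ Nat.card ι.ker := by
    have hb : ∀ u : N.ker, ∃ (b : 𝓞 M) (J : (Ideal (𝓞 K))⁰), b ≠ 0 ∧
        ((u : (𝓞 M)ˣ) : 𝓞 M) * b = g • b ∧
        (J : Ideal (𝓞 K)).map (algebraMap (𝓞 K) (𝓞 M)) = Ideal.span {b} := by
      intro u
      have hN : normO K ((u : (𝓞 M)ˣ) : 𝓞 M) = normO K (1 : 𝓞 M) := by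
        rw [normO_unit, show normU K M (u : (𝓞 M)ˣ) = 1 from u.2]
        simp [normO]
      obtain ⟨b, hb, e⟩ := exists_eq_div hg one_ne_zero hN
      rw [one_mul] at e
      have hgb : g • Ideal.span {b} = Ideal.span {b} := by
        rw [smul_span_singleton, ← e, Ideal.span_singleton_mul_left_unit (Units.isUnit _)]
      obtain ⟨J, hJ⟩ := exists_map_eq hu (Ideal.span {b}) (fun σ => (Subgroup.zpowers_le.2
        (show g ∈ MulAction.stabilizer (M ≃ₐ[K] M) _ from hgb)) (hg σ)) (by simpa using hb)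
      refine ⟨b, ⟨J, mem_nonZeroDivisors_of_ne_zero fun h => hb ?_⟩, hb, e, hJ⟩
      rw [h, Ideal.zero_eq_bot, Ideal.map_bot, eq_comm, Ideal.span_singleton_eq_bot] at hJ
      exact hJ
    choose b J hb0 hbu hbJ using hb
    have hker : ∀ u, ClassGroup.mk0 (J u) ∈ ι.ker := fun u => by
      rw [MonoidHom.mem_ker, ClassGroup.extendedHom_mk0]
      exact (ClassGroup.mk0_eq_one_iff _).2 ⟨⟨b u, hbJ u⟩⟩
    rw [ind0, Subgroup.relIndex, Subgroup.index_eq_card]
    refine Nat.card_le_card_of_injective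
      (fun q : N.ker ⧸ d.range.subgroupOf N.ker => (⟨_, hker q.out⟩ : ι.ker)) fun q₁ q₂ h => ?_
    obtain ⟨x, y, hx, hy, e⟩ := ClassGroup.mk0_eq_mk0_iff.1 (congrArg Subtype.val h)
    have e' := congrArg (Ideal.map (algebraMap (𝓞 K) (𝓞 M))) e
    simp only [Ideal.map_mul, Ideal.map_span, Set.image_singleton, hbJ,
      Ideal.span_singleton_mul_span_singleton, Ideal.span_singleton_eq_span_singleton] at e'
    obtain ⟨v, hv⟩ := e'
    set X := algebraMap (𝓞 K) (𝓞 M) x
    set Y := algebraMap (𝓞 K) (𝓞 M) y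
    have hv' := congrArg (fun z => g • z) hv
    simp only [smul_mul', X, Y, smul_algebraMap, ← hbu] at hv'
    set u₁ : (𝓞 M)ˣ := ((q₁.out : N.ker) : (𝓞 M)ˣ)
    set u₂ : (𝓞 M)ˣ := ((q₂.out : N.ker) : (𝓞 M)ˣ)
    have hact : act K M g v * u₁ = u₂ * v := by
      apply Units.ext
      apply mul_left_cancel₀ (show X * b q₁.out ≠ 0 from mul_ne_zero
        ((map_ne_zero_iff _ (FaithfulSMul.algebraMap_injective _ _)).2 hx) (hb0 _))
      show X * b q₁.out * ((g • (v : 𝓞 M)) * (u₁ : 𝓞 M)) = X * b q₁.out * ((u₂ : 𝓞 M) * v)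
      linear_combination hv' - (u₂ : 𝓞 M) * hv
    rw [← QuotientGroup.out_eq' q₁, ← QuotientGroup.out_eq' q₂, QuotientGroup.eq,
      Subgroup.mem_subgroupOf]
    refine ⟨v, ?_⟩
    show delta K M g v = u₁⁻¹ * u₂
    rw [delta_apply, div_eq_iff_eq_mul, mul_assoc, ← hact, mul_comm u₁⁻¹, mul_inv_cancel_right]
  -- invariant classes
  have h2 : Nat.card δ.ker ≤ ind0 d N * Nat.card ι.range := by
    have hdata : ∀ c : δ.ker, ∃ (J : (Ideal (𝓞 M))⁰) (x y : 𝓞 M) (e : d.ker),
        ClassGroup.mk0 J = c ∧ x ≠ 0 ∧ y ≠ 0 ∧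
        Ideal.span {x} * g • (J : Ideal (𝓞 M)) = Ideal.span {y} * (J : Ideal (𝓞 M)) ∧
        normO K y = normO K x * ((e : (𝓞 M)ˣ) : 𝓞 M) := by
      rintro ⟨c, hc⟩
      obtain ⟨J, rfl⟩ := ClassGroup.mk0_surjective c
      rw [MonoidHom.mem_ker, hδ, MonoidHom.div_apply, hτ, MonoidHom.id_apply, div_eq_one] at hc
      obtain ⟨x, y, hx, hy, h⟩ := ClassGroup.mk0_eq_mk0_iff.1 hc
      replace h : Ideal.span {x} * g • (J : Ideal (𝓞 M)) = Ideal.span {y} * (J : Ideal (𝓞 M)) := h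
      have hP := congrArg (fun I : Ideal (𝓞 M) => ∏ σ : M ≃ₐ[K] M, σ • I) h
      simp only [smul_mul', Finset.prod_mul_distrib, span_normO] at hP
      rw [show ∏ σ : M ≃ₐ[K] M, σ • g • (J : Ideal (𝓞 M)) = ∏ σ : M ≃ₐ[K] M, σ • (J : Ideal (𝓞 M))
        from Fintype.prod_equiv (Equiv.mulRight g) _ _ fun σ => by rw [smul_smul]; rfl] at hP
      obtain ⟨e, he⟩ := Ideal.span_singleton_eq_span_singleton.1 (mul_right_cancel₀
        (Finset.prod_ne_zero_iff.2 fun σ _ => fun h0 => nonZeroDivisors.ne_zero J.2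
          (smul_left_cancel σ (h0.trans (Ideal.map_bot
            (f := MulSemiringAction.toRingHom (M ≃ₐ[K] M) (𝓞 M) σ)).symm))) hP)
      have hge : act K M g e = e := by
        apply Units.ext
        apply mul_left_cancel₀ (normO_ne_zero (K := K) hx)
        show normO K x * (g • (e : 𝓞 M)) = normO K x * (e : 𝓞 M)
        conv_lhs => rw [← smul_normO g x, ← smul_mul', he, smul_normO]
        exact he.symm
      exact ⟨J, x, y, ⟨e, by rw [MonoidHom.mem_ker, delta_apply, hge, div_self']⟩, rfl, hx, hy, h,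
        he.symm⟩
    choose J x y e hJ hx hy hJe he using hdata
    let F : δ.ker → d.ker ⧸ N.range.subgroupOf d.ker := fun c => QuotientGroup.mk (e c)
    have hF : ∀ c₁ c₂, F c₁ = F c₂ → (c₁ : ClassGroup (𝓞 M)) / c₂ ∈ ι.range := by
      intro c₁ c₂ h
      replace h := h.symm
      rw [QuotientGroup.eq, Subgroup.mem_subgroupOf] at h
      obtain ⟨v, hv⟩ := h
      have he' : ((e c₁ : (𝓞 M)ˣ) : 𝓞 M) = ((e c₂ : (𝓞 M)ˣ) : 𝓞 M) * (N v : (𝓞 M)ˣ) := by
        rw [← Units.val_mul, hv, Subgroup.coe_mul, Subgroup.coe_inv, mul_inv_cancel_left]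
      obtain ⟨J', hJ'⟩ := ClassGroup.mk0_surjective ((c₂ : ClassGroup (𝓞 M))⁻¹)
      obtain ⟨w, hw⟩ : ∃ w, (J c₂ : Ideal (𝓞 M)) * (J' : Ideal (𝓞 M)) = Ideal.span {w} := by
        have h1 : ClassGroup.mk0 (J c₂ * J') = 1 := by rw [map_mul, hJ, hJ', mul_inv_cancel]
        exact ((ClassGroup.mk0_eq_one_iff (J c₂ * J').2).1 h1).principal
      have hw0 : w ≠ 0 := fun h0 => nonZeroDivisors.ne_zero (J c₂ * J').2 (by
        rw [Submonoid.coe_mul, hw, h0, Ideal.span_singleton_zero]; rfl)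
      have hinv : Ideal.span {y c₂ * w} * g • (J' : Ideal (𝓞 M)) =
          Ideal.span {x c₂ * g • w} * (J' : Ideal (𝓞 M)) := by
        rw [← Ideal.span_singleton_mul_span_singleton, ← Ideal.span_singleton_mul_span_singleton,
          ← smul_span_singleton, ← hw, smul_mul']
        calc _ = (Ideal.span {y c₂} * (J c₂ : Ideal (𝓞 M))) *
              ((J' : Ideal (𝓞 M)) * g • (J' : Ideal (𝓞 M))) := by ring
          _ = _ := by rw [← hJe]; ring
      have hx0 : x c₁ * (y c₂ * w) * (v : 𝓞 M) ≠ 0 :=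
        mul_ne_zero (mul_ne_zero (hx c₁) (mul_ne_zero (hy c₂) hw0)) v.ne_zero
      have hN : normO K (y c₁ * (x c₂ * g • w)) =
          normO K (x c₁ * (y c₂ * w) * (v : 𝓞 M)) := by
        simp only [normO_mul, normO_smul, normO_unit, he, he']
        ring
      rw [div_eq_mul_inv, ← hJ c₁, ← hJ', ← map_mul]
      refine mk0_mem_range hg hu hx0 hN _ ?_
      rw [Submonoid.coe_mul, smul_mul', Ideal.span_singleton_mul_right_unit v.isUnit,
        ← Ideal.span_singleton_mul_span_singleton (x c₁) (y c₂ * w),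
        ← Ideal.span_singleton_mul_span_singleton (y c₁) (x c₂ * g • w), mul_mul_mul_comm, hJe,
        hinv, mul_mul_mul_comm]
    rw [ind0, Subgroup.relIndex, Subgroup.index_eq_card, ← Nat.card_prod]
    have : Finite (d.ker ⧸ N.range.subgroupOf d.ker) := Nat.finite_of_card_ne_zero (by
      rw [← Subgroup.index_eq_card]
      exact ind0_delta_normU_ne_zero hg)
    refine Nat.card_le_card_of_injective (fun c : δ.ker => (F c,
      (⟨_, hF c (Function.invFun F (F c)) (Function.invFun_eq ⟨c, rfl⟩).symm⟩ : ι.range)))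
      fun c₁ c₂ h => ?_
    simp only [Prod.mk.injEq, Subtype.mk.injEq] at h
    rw [h.1] at h
    exact Subtype.ext (div_left_inj.1 h.2)
  have hH := ind0_units (K := K) (M := M) hg
  have hι : Nat.card ι.ker * Nat.card ι.range = Nat.card (ClassGroup (𝓞 K)) := by
    rw [← Subgroup.index_ker, Subgroup.card_mul_index]
  refine Nat.le_of_mul_le_mul_left ?_ (Nat.card_pos (α := (clNorm K M).range))
  calc Nat.card (clNorm K M).range * Nat.card (M ≃ₐ[K] M)
      ≤ ind0 d N * Nat.card ι.range * Nat.card (M ≃ₐ[K] M) :=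
        Nat.mul_le_mul_right _ (h1.trans h2)
    _ = ind0 N d * Nat.card ι.range := by rw [hH]; ring
    _ ≤ Nat.card ι.ker * Nat.card ι.range := Nat.mul_le_mul_right _ h3
    _ = Nat.card (clNorm K M).range * (clNorm K M).range.index := by
        rw [hι, Subgroup.card_mul_index]

end Fermat.Agent.Two.NormIndex

end
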