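import Fermat.Agent.CFT.Idele.Herbrand
import Mathlib.NumberTheory.NumberField.InfinitePlace.Ramification
import Mathlib.NumberTheory.NumberField.InfinitePlace.TotallyRealComplex
import Mathlib.NumberTheory.NumberField.Units.DirichletTheorem
import Mathlib.GroupTheory.FiniteAbelian.Basic

/-!
The Herbrand quotient of the units in a cyclic extension of a field with one complex place:
`[ker N : im d] = n [ker d : im N]`, with the latter nonzero.
-/

set_option autoImplicit false

noncomputable section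

namespace Fermat.Agent.Two.NormIndex

open NumberField Finset
open Fermat.Agent.CFT.Idele
open scoped NumberField

variable (K M : Type*) [Field K] [Field M] [Algebra K M]

/-- The action of an automorphism on the units of the integers. -/
def act (σ : M ≃ₐ[K] M) : (𝓞 M)ˣ →* (𝓞 M)ˣ :=
  Units.map (MulSemiringAction.toRingHom (M ≃ₐ[K] M) (𝓞 M) σ).toMonoidHom

variable {K M}

theorem act_mul (σ τ : M ≃ₐ[K] M) (u : (𝓞 M)ˣ) :
    act K M (σ * τ) u = act K M σ (act K M τ u) :=
  Units.ext (RingOfIntegers.ext rfl)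

variable (K M) in
/-- The map `u ↦ g u / u`. -/
def delta (g : M ≃ₐ[K] M) : (𝓞 M)ˣ →* (𝓞 M)ˣ := act K M g / MonoidHom.id _

theorem delta_apply (g : M ≃ₐ[K] M) (u : (𝓞 M)ˣ) : delta K M g u = act K M g u / u := rfl

variable [FiniteDimensional K M]

variable (K M) in
/-- The product of the conjugates. -/
def normU : (𝓞 M)ˣ →* (𝓞 M)ˣ := ∏ σ : M ≃ₐ[K] M, act K M σ

theorem normU_apply (u : (𝓞 M)ˣ) : normU K M u = ∏ σ : M ≃ₐ[K] M, act K M σ u := by
  simp [normU]

theorem normU_act (τ : M ≃ₐ[K] M) (u : (𝓞 M)ˣ) : normU K M (act K M τ u) = normU K M u := by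
  rw [normU_apply, normU_apply]
  exact Fintype.sum_equiv (Equiv.mulRight τ) (fun σ => Additive.ofMul (act K M σ (act K M τ u)))
    (fun σ => Additive.ofMul (act K M σ u)) fun σ => congrArg Additive.ofMul (act_mul σ τ u).symm

theorem act_normU (τ : M ≃ₐ[K] M) (u : (𝓞 M)ˣ) : act K M τ (normU K M u) = normU K M u := by
  rw [normU_apply, map_prod]
  refine Fintype.prod_equiv (Equiv.mulLeft τ) _ _ fun σ => ?_
  exact (act_mul τ σ u).symm

theorem normU_delta (g : M ≃ₐ[K] M) (u : (𝓞 M)ˣ) : normU K M (delta K M g u) = 1 := by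
  rw [delta_apply, map_div, normU_act, div_self']

theorem delta_normU (g : M ≃ₐ[K] M) (u : (𝓞 M)ˣ) : delta K M g (normU K M u) = 1 := by
  rw [delta_apply, act_normU, div_self']

section Places

variable [NumberField M] [IsGalois K M] [IsTotallyComplex K] [Subsingleton (InfinitePlace K)]

omit [FiniteDimensional K M] [NumberField M] [IsGalois K M] [Subsingleton (InfinitePlace K)] in
variable (K) in
include K in
theorem isComplex_all (w : InfinitePlace M) : w.IsComplex :=
  InfinitePlace.not_isReal_iff_isComplex.1 fun h =>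
    InfinitePlace.not_isReal_iff_isComplex.2 (IsTotallyComplex.isComplex _)
      (h.comap (algebraMap K M))

omit [FiniteDimensional K M] [NumberField M] [IsGalois K M] [Subsingleton (InfinitePlace K)] in
variable (K) in
include K in
theorem mult_all (w : InfinitePlace M) : w.mult = 2 :=
  InfinitePlace.mult_isComplex ⟨w, isComplex_all K w⟩

omit [FiniteDimensional K M] [NumberField M] in
theorem bijective_smul (w : InfinitePlace M) :
    Function.Bijective fun σ : M ≃ₐ[K] M => σ • w := by
  refine ⟨fun σ τ h => ?_, fun w' => InfinitePlace.exists_smul_eq_of_comap_eq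
    (Subsingleton.elim _ _)⟩
  have hu : InfinitePlace.IsUnramified K w := by
    show InfinitePlace.mult (w.comap (algebraMap K M)) = w.mult
    rw [mult_all K w]
    exact IsTotallyComplex.mult_eq _
  have hs := InfinitePlace.isUnramified_iff_stabilizer_eq_bot.1 hu
  have : τ⁻¹ * σ ∈ MulAction.stabilizer (M ≃ₐ[K] M) w := by
    rw [MulAction.mem_stabilizer_iff, mul_smul]
    exact inv_smul_eq_iff.2 h
  rw [hs, Subgroup.mem_bot, inv_mul_eq_one] at this
  exact this.symm

omit [FiniteDimensional K M] in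
theorem card_gal : Nat.card (M ≃ₐ[K] M) = Fintype.card (InfinitePlace M) := by
  rw [← Nat.card_eq_fintype_card]
  exact Nat.card_congr (Equiv.ofBijective _
    (bijective_smul (K := K) (Classical.arbitrary (InfinitePlace M))))

theorem sum_log_smul (w : InfinitePlace M) (u : (𝓞 M)ˣ) :
    ∑ σ : M ≃ₐ[K] M, Real.log ((σ • w) ((u : 𝓞 M) : M)) = 0 := by
  rw [Fintype.sum_bijective _ (bijective_smul (K := K) w) _
    (fun v : InfinitePlace M => Real.log (v ((u : 𝓞 M) : M))) fun σ => rfl]
  have h := Units.sum_mult_mul_log u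
  simp only [mult_all K, ← Finset.mul_sum] at h
  exact (mul_eq_zero.1 h).resolve_left two_ne_zero

omit [FiniteDimensional K M] [NumberField M] [IsGalois K M] [IsTotallyComplex K]
  [Subsingleton (InfinitePlace K)] in
theorem log_act (w : InfinitePlace M) (σ : M ≃ₐ[K] M) (u : (𝓞 M)ˣ) :
    Real.log (w ((act K M σ u : 𝓞 M) : M)) = Real.log ((σ⁻¹ • w) ((u : 𝓞 M) : M)) := rfl

omit [FiniteDimensional K M] [NumberField M] [IsGalois K M] [IsTotallyComplex K]
  [Subsingleton (InfinitePlace K)] in
theorem log_prod_zpow {ι : Type*} (s : Finset ι) (w : InfinitePlace M) (f : ι → ℤ)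
    (x : ι → (𝓞 M)ˣ) :
    Real.log (w ((((∏ i ∈ s, x i ^ f i : (𝓞 M)ˣ) : 𝓞 M)) : M)) =
      ∑ i ∈ s, (f i : ℝ) * Real.log (w ((x i : 𝓞 M) : M)) := by
  let L : Additive (𝓞 M)ˣ →+ ℝ := AddMonoidHom.mk'
    (fun y => Real.log (w ((y.toMul : 𝓞 M) : M))) fun y z => by
      rw [← Real.log_mul (Units.pos_at_place _ w).ne' (Units.pos_at_place _ w).ne', ← map_mul]
      rfl
  have e : ∀ y : (𝓞 M)ˣ, Real.log (w ((y : 𝓞 M) : M)) = L (Additive.ofMul y) := fun y => rfl
  rw [e, ofMul_prod, map_sum]
  refine Finset.sum_congr rfl fun i _ => ?_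
  rw [ofMul_zpow, map_zsmul, zsmul_eq_mul]
  rfl

/-- A unit whose conjugates satisfy only the constant relation. -/
theorem exists_minkowski :
    ∃ u : (𝓞 M)ˣ, normU K M u = 1 ∧
      ∀ f : (M ≃ₐ[K] M) → ℤ, ∏ σ, act K M σ u ^ f σ ∈ Units.torsion M →
        ∀ σ, f σ = f 1 := by
  let w₀ : InfinitePlace M := Classical.arbitrary _
  obtain ⟨e, he⟩ := Units.dirichletUnitTheorem.exists_unit M w₀
  let m := Nat.card (Units.torsion M)
  refine ⟨e ^ m, ?_, fun f hf => ?_⟩
  · have ht : normU K M e ∈ Units.torsion M := by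
      refine (Units.mem_torsion M).2 fun w => ?_
      apply Real.eq_one_of_pos_of_log_eq_zero (Units.pos_at_place _ w)
      rw [normU_apply, show (∏ σ : M ≃ₐ[K] M, act K M σ e) =
        ∏ σ : M ≃ₐ[K] M, act K M σ e ^ (fun _ => (1 : ℤ)) σ by simp, log_prod_zpow]
      simp only [Int.cast_one, one_mul, log_act]
      rw [← sum_log_smul (K := K) w e]
      exact Fintype.sum_equiv (Equiv.inv _) _ _ fun σ => rfl
    rw [map_pow]
    exact congrArg Subtype.val (pow_card_eq_one' (x := (⟨_, ht⟩ : Units.torsion M)))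
  · have hm : m ≠ 0 := Nat.card_pos.ne'
    let l : (M ≃ₐ[K] M) → ℝ := fun ρ => Real.log ((ρ • w₀) ((e : 𝓞 M) : M))
    have hneg : ∀ ρ, ρ ≠ 1 → l ρ < 0 := fun ρ hρ =>
      he _ fun h => hρ ((bijective_smul (K := K) w₀).injective (h.trans (one_smul _ w₀).symm))
    have hrel : ∀ τ, ∑ σ, (f σ : ℝ) * l (σ⁻¹ * τ) = 0 := fun τ => by
      have h := congrArg Real.log ((Units.mem_torsion M).1 hf (τ • w₀))
      rw [log_prod_zpow, Real.log_one] at h
      apply mul_left_cancel₀ (Nat.cast_ne_zero (R := ℝ).2 hm)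
      rw [mul_zero, ← h, Finset.mul_sum]
      refine Finset.sum_congr rfl fun σ _ => ?_
      rw [log_act, ← mul_smul, Units.val_pow_eq_pow_val, RingOfIntegers.coe_eq_algebraMap, map_pow,
        map_pow, Real.log_pow]
      simp only [l, RingOfIntegers.coe_eq_algebraMap]
      ring
    obtain ⟨τ, -, hmax⟩ := exists_max_image univ f univ_nonempty
    have hzero : ∑ σ, ((f σ : ℝ) - f τ) * l (σ⁻¹ * τ) = 0 := by
      simp only [sub_mul, Finset.sum_sub_distrib, hrel, ← Finset.mul_sum]
      rw [Fintype.sum_equiv ((Equiv.inv _).trans (Equiv.mulRight τ)) (fun σ => l (σ⁻¹ * τ)) l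
        fun σ => rfl, show ∑ ρ, l ρ = 0 from sum_log_smul (K := K) w₀ e]
      simp
    have hall : ∀ σ, f σ = f τ := fun σ => by
      by_cases hσ : σ⁻¹ * τ = 1
      · rw [inv_mul_eq_one.1 hσ]
      have hnn : ∀ σ ∈ (univ : Finset (M ≃ₐ[K] M)),
          0 ≤ ((f σ : ℝ) - f τ) * l (σ⁻¹ * τ) := fun σ _ => by
        by_cases h : σ⁻¹ * τ = 1
        · rw [inv_mul_eq_one.1 h, sub_self, zero_mul]
        · exact mul_nonneg_of_nonpos_of_nonpos
            (sub_nonpos.2 (Int.cast_le.2 (hmax σ (mem_univ _)))) (hneg _ h).le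
      rcases mul_eq_zero.1 ((sum_eq_zero_iff_of_nonneg hnn).1 hzero σ (mem_univ _)) with h | h
      · exact_mod_cast sub_eq_zero.1 h
      · exact absurd h (hneg _ hσ).ne
    exact fun σ => (hall σ).trans (hall 1).symm

variable (K) in
/-- The map to the conjugates of a unit. -/
def powMap (u : (𝓞 M)ˣ) : Multiplicative ((M ≃ₐ[K] M) → ℤ) →* (𝓞 M)ˣ :=
  MonoidHom.mk' (fun f => ∏ σ, act K M σ u ^ f.toAdd σ) fun f f' => by
    rw [← Finset.prod_mul_distrib]
    exact Finset.prod_congr rfl fun σ _ => zpow_add _ _ _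

omit [NumberField M] [IsGalois K M] [IsTotallyComplex K] [Subsingleton (InfinitePlace K)] in
theorem powMap_apply (u : (𝓞 M)ˣ) (f : (M ≃ₐ[K] M) → ℤ) :
    powMap K u (Multiplicative.ofAdd f) = ∏ σ, act K M σ u ^ f σ := rfl

omit [NumberField M] [IsGalois K M] [IsTotallyComplex K] [Subsingleton (InfinitePlace K)] in
theorem act_powMap (u : (𝓞 M)ˣ) (τ : M ≃ₐ[K] M) (f : (M ≃ₐ[K] M) → ℤ) :
    act K M τ (powMap K u (Multiplicative.ofAdd f)) =
      powMap K u (Multiplicative.ofAdd fun σ => f (τ⁻¹ * σ)) := by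
  rw [powMap_apply, powMap_apply, map_prod]
  refine Fintype.prod_equiv (Equiv.mulLeft τ) _ _ fun σ => ?_
  rw [map_zpow, ← act_mul, Equiv.coe_mulLeft, inv_mul_cancel_left]

theorem index_powMap_ne_zero {u : (𝓞 M)ˣ}
    (hu : ∀ f : (M ≃ₐ[K] M) → ℤ, ∏ σ, act K M σ u ^ f σ ∈ Units.torsion M → ∀ σ, f σ = f 1) :
    (powMap K u).range.index ≠ 0 := by
  classical
  have htor : IsMulTorsion ((𝓞 M)ˣ ⧸ (powMap K u).range) := by
    rintro ⟨x⟩
    let v : Option {σ : M ≃ₐ[K] M // σ ≠ 1} → Additive (𝓞 M)ˣ :=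
      fun i => Additive.ofMul (i.elim x fun σ => act K M σ.1 u)
    have hdep : ¬ LinearIndependent ℤ v := fun h => by
      have h' := h.fintype_card_le_finrank
      rw [Units.finrank_eq, Units.rank, ← card_gal (K := K), Fintype.card_option,
        Fintype.card_subtype_compl, Fintype.card_subtype_eq, Nat.card_eq_fintype_card] at h'
      omega
    obtain ⟨g, hg, i, hi⟩ := Fintype.not_linearIndependent_iff.1 hdep
    let f : (M ≃ₐ[K] M) → ℤ := fun σ => if h : σ = 1 then 0 else g (some ⟨σ, h⟩)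
    have hsum : powMap K u (Multiplicative.ofAdd f) * x ^ g none = 1 := by
      rw [powMap_apply]
      apply Additive.ofMul.injective
      rw [ofMul_mul, ofMul_prod, ofMul_zpow, ofMul_one, ← hg, Fintype.sum_option, add_comm]
      congr 1
      rw [← Finset.sum_erase_add _ _ (mem_univ (1 : M ≃ₐ[K] M))]
      simp only [f, dite_true, zpow_zero, ofMul_one, add_zero]
      rw [Finset.sum_subtype (p := fun σ : M ≃ₐ[K] M => σ ≠ 1) (univ.erase 1) (by simp)]
      refine Finset.sum_congr rfl fun σ _ => ?_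
      rw [dif_neg σ.2, ofMul_zpow]
      rfl
    by_cases hn : g none = 0
    · exfalso
      rw [hn, zpow_zero, mul_one, powMap_apply] at hsum
      have hc := hu f (hsum ▸ one_mem _)
      rcases i with _ | ⟨σ, hσ⟩
      · exact hi hn
      · have h := hc σ
        simp only [f, dif_neg hσ, dite_true] at h
        exact hi h
    · change IsOfFinOrder (x : (𝓞 M)ˣ ⧸ (powMap K u).range)
      refine (isOfFinOrder_iff_zpow_eq_one (x := (x : (𝓞 M)ˣ ⧸ (powMap K u).range))).2
        ⟨g none, hn, ?_⟩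
      show ((x ^ g none : (𝓞 M)ˣ) : (𝓞 M)ˣ ⧸ (powMap K u).range) = 1
      rw [QuotientGroup.eq_one_iff]
      exact ⟨(Multiplicative.ofAdd f)⁻¹, (map_inv (powMap K u) (Multiplicative.ofAdd f)).trans
        (inv_eq_of_mul_eq_one_right hsum)⟩
  have : Group.FG (𝓞 M)ˣ := Group.fg_iff_monoid_fg.2 inferInstance
  have : Group.FG ((𝓞 M)ˣ ⧸ (powMap K u).range) :=
    Group.fg_of_surjective (QuotientGroup.mk'_surjective _)
  have : Finite ((𝓞 M)ˣ ⧸ (powMap K u).range) :=
    CommGroup.finite_of_fg_isMulTorsion ((𝓞 M)ˣ ⧸ (powMap K u).range) htor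
  exact Subgroup.index_ne_zero_of_finite

omit [FiniteDimensional K M] [NumberField M] [IsGalois K M] [IsTotallyComplex K]
  [Subsingleton (InfinitePlace K)] in
theorem zpow_sum_aux {ι : Type*} (s : Finset ι) (a : (𝓞 M)ˣ) (f : ι → ℤ) :
    ∏ i ∈ s, a ^ f i = a ^ ∑ i ∈ s, f i :=
  (map_prod (zpowersHom _ a) (fun i => Multiplicative.ofAdd (f i)) s).symm.trans
    (by rw [← ofAdd_sum]; rfl)

/-- The Herbrand quotient of the units. -/
theorem ind0_units {g : M ≃ₐ[K] M} (hg : ∀ σ, σ ∈ Subgroup.zpowers g) :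
    ind0 (normU K M) (delta K M g) = Nat.card (M ≃ₐ[K] M) * ind0 (delta K M g) (normU K M) := by
  classical
  obtain ⟨u, hu1, hu⟩ := exists_minkowski (K := K) (M := M)
  set d := delta K M g
  set φ := powMap K u
  set B := φ.range
  have hconst : ∀ f : (M ≃ₐ[K] M) → ℤ, φ (Multiplicative.ofAdd f) = 1 → ∀ σ, f σ = f 1 :=
    fun f hf => hu f (by rw [← powMap_apply]; rw [show powMap K u = φ from rfl, hf]; exact one_mem _)
  have hN : ∀ x ∈ B, normU K M x = 1 := by
    rintro _ ⟨f, rfl⟩
    rw [← Multiplicative.ofAdd.apply_symm_apply f, powMap_apply, map_prod]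
    exact Finset.prod_eq_one fun σ _ => by rw [map_zpow, normU_act, hu1, one_zpow]
  have hd : ∀ f : (M ≃ₐ[K] M) → ℤ, d (φ (Multiplicative.ofAdd f)) =
      φ (Multiplicative.ofAdd fun σ => f (g⁻¹ * σ) - f σ) := fun f => by
    rw [delta_apply, act_powMap, ← map_div]
    rfl
  have hdB : B.map d ≤ B := by
    rintro _ ⟨_, ⟨f, rfl⟩, rfl⟩
    exact ⟨_, (hd f.toAdd).symm⟩
  have hNB : B.map (normU K M) ≤ B := by
    rintro _ ⟨x, hx, rfl⟩
    rw [hN x hx]
    exact one_mem _
  have h := herbrand_of_index d (normU K M) (delta_normU g) (normU_delta g) B hdB hNB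
    (index_powMap_ne_zero hu)
  -- the fixed part of `B` is trivial
  have h1 : ind0Sub d (normU K M) B = 1 := by
    rw [ind0Sub, Subgroup.relIndex_eq_one]
    rintro _ ⟨⟨f, rfl⟩, hf⟩
    replace hf : φ (Multiplicative.ofAdd fun σ => f.toAdd (g⁻¹ * σ) - f.toAdd σ) = 1 :=
      (hd f.toAdd).symm.trans hf
    have hc := hconst _ hf
    have hsum : ∑ σ, (f.toAdd (g⁻¹ * σ) - f.toAdd σ) = 0 := by
      rw [Finset.sum_sub_distrib, sub_eq_zero]
      exact Fintype.sum_equiv (Equiv.mulLeft g⁻¹) _ _ fun σ => rfl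
    rw [Finset.sum_congr rfl fun σ _ => hc σ, Finset.sum_const, nsmul_eq_mul, mul_eq_zero,
      or_iff_right (by simp)] at hsum
    have hfix : ∀ σ, f.toAdd (g⁻¹ * σ) = f.toAdd σ := fun σ =>
      sub_eq_zero.1 ((hc σ).trans hsum)
    have hall : ∀ σ, f.toAdd σ = f.toAdd 1 := by
      intro σ
      obtain ⟨k, rfl⟩ := (mem_powers_iff_mem_zpowers (x := g)).2 (hg σ)
      induction k with
      | zero => simp
      | succ k ih =>
        rw [← hfix (g ^ (k + 1)), pow_succ', inv_mul_cancel_left]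
        exact ih
    have : φ f = 1 := by
      show ∏ σ, act K M σ u ^ f.toAdd σ = 1
      simp only [hall]
      rw [Finset.prod_zpow, ← normU_apply, hu1, one_zpow]
    rw [this]
    exact one_mem _
  -- the norm-zero part modulo the image of `d`
  have h2 : ind0Sub (normU K M) d B = Nat.card (M ≃ₐ[K] M) := by
    rw [ind0Sub, inf_eq_left.2 fun x hx => (MonoidHom.mem_ker).2 (hN x hx), ← Subgroup.index_comap]
    let χ : Multiplicative ((M ≃ₐ[K] M) → ℤ) →* Multiplicative (ZMod (Nat.card (M ≃ₐ[K] M))) :=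
      AddMonoidHom.toMultiplicative (AddMonoidHom.mk' (fun f => ((∑ σ, f σ : ℤ) :
        ZMod (Nat.card (M ≃ₐ[K] M)))) fun f f' => by
          simp [Finset.sum_add_distrib])
    have hχ : Function.Surjective χ := fun z => by
      obtain ⟨a, ha⟩ := ZMod.intCast_surjective z.toAdd
      refine ⟨Multiplicative.ofAdd (Pi.single 1 a), ?_⟩
      show Multiplicative.ofAdd (((∑ σ, (Pi.single 1 a : (M ≃ₐ[K] M) → ℤ) σ : ℤ) :
        ZMod (Nat.card (M ≃ₐ[K] M)))) = z
      rw [Finset.sum_pi_single' (1 : M ≃ₐ[K] M) a univ, if_pos (mem_univ _), ha]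
      rfl
    have hker : (B.map d).comap φ = χ.ker := by
      refine le_antisymm ?_ ?_
      · rintro f ⟨_, ⟨h', rfl⟩, hh⟩
        replace hh := (hd h'.toAdd).symm.trans hh
        have hc := hconst (fun σ => f.toAdd σ - (h'.toAdd (g⁻¹ * σ) - h'.toAdd σ))
          (by
            show φ (f / Multiplicative.ofAdd fun σ => h'.toAdd (g⁻¹ * σ) - h'.toAdd σ) = 1
            rw [map_div, hh, div_self'])
        have e : ∑ σ, f.toAdd σ =
            ∑ σ, (h'.toAdd (g⁻¹ * σ) - h'.toAdd σ) + ∑ σ, (f.toAdd σ -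
              (h'.toAdd (g⁻¹ * σ) - h'.toAdd σ)) := by
          rw [← Finset.sum_add_distrib]
          exact Finset.sum_congr rfl fun σ _ => by ring
        show Multiplicative.ofAdd (((∑ σ, f.toAdd σ : ℤ) : ZMod (Nat.card (M ≃ₐ[K] M)))) = 1
        rw [e, Finset.sum_sub_distrib, Fintype.sum_equiv (Equiv.mulLeft g⁻¹)
          (fun σ => h'.toAdd (g⁻¹ * σ)) _ fun σ => rfl, sub_self, zero_add,
          Finset.sum_congr rfl fun σ _ => hc σ, Finset.sum_const, nsmul_eq_mul,
          Finset.card_univ, ← Nat.card_eq_fintype_card]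
        rw [Int.cast_mul, Int.cast_natCast, ZMod.natCast_self, zero_mul]
        rfl
      · intro f hf
        have hdvd : (Nat.card (M ≃ₐ[K] M) : ℤ) ∣ ∑ σ, f.toAdd σ :=
          (ZMod.intCast_zmod_eq_zero_iff_dvd _ _).1 hf
        obtain ⟨c, hc⟩ := hdvd
        show φ f ∈ B.map d
        have hv : ∀ σ, act K M σ u / act K M 1 u ∈ B.map d := by
          intro σ
          obtain ⟨k, rfl⟩ := (mem_powers_iff_mem_zpowers (x := g)).2 (hg σ)
          induction k with
          | zero =>
            show act K M (g ^ 0) u / act K M 1 u ∈ B.map d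
            rw [pow_zero, div_self']
            exact one_mem _
          | succ k ih =>
            have hm : d (act K M (g ^ k) u) ∈ B.map d := by
              refine Subgroup.mem_map_of_mem d ⟨Multiplicative.ofAdd (Pi.single (g ^ k) 1), ?_⟩
              rw [powMap_apply, Fintype.prod_eq_single (g ^ k) fun σ hσ => by
                rw [Pi.single_eq_of_ne hσ, zpow_zero], Pi.single_eq_same, zpow_one]
            show act K M (g ^ (k + 1)) u / act K M 1 u ∈ B.map d
            have he : act K M (g ^ (k + 1)) u / act K M 1 u =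
                d (act K M (g ^ k) u) * (act K M (g ^ k) u / act K M 1 u) := by
              rw [delta_apply, ← act_mul, ← pow_succ', div_mul_div_cancel]
            rw [he]
            exact mul_mem hm ih
        have he : φ f = ∏ σ, (act K M σ u / act K M 1 u) ^ (f.toAdd σ - c) := by
          have h0 : ∑ σ, (f.toAdd σ - c) = 0 := by
            rw [Finset.sum_sub_distrib, hc, Finset.sum_const, nsmul_eq_mul, Finset.card_univ,
              Nat.card_eq_fintype_card, sub_self]
          calc φ f = ∏ σ, act K M σ u ^ f.toAdd σ := rfl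
            _ = (∏ σ, act K M σ u ^ (f.toAdd σ - c)) * (∏ σ, act K M σ u ^ c) := by
              rw [← Finset.prod_mul_distrib]
              simp [← zpow_add]
            _ = _ := by
              rw [Finset.prod_zpow, ← normU_apply, hu1, one_zpow, mul_one]
              simp only [div_zpow, Finset.prod_div_distrib]
              rw [zpow_sum_aux _ _ _, h0, zpow_zero, div_one]
        rw [he]
        exact prod_mem fun σ _ => zpow_mem (hv σ) _
    rw [hker, Subgroup.index_ker, MonoidHom.range_eq_top.2 hχ, Subgroup.card_top, Nat.card_congr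
      Multiplicative.toAdd, Nat.card_zmod]
  rw [h1, h2, one_mul] at h
  exact h

theorem ind0_delta_normU_ne_zero {g : M ≃ₐ[K] M} (hg : ∀ σ, σ ∈ Subgroup.zpowers g) :
    ind0 (delta K M g) (normU K M) ≠ 0 := by
  have hle : (delta K M g).ker ≤ Units.torsion M := by
    intro x hx
    have hfix : act K M g x = x := div_eq_one.1 hx
    refine (Units.mem_torsion M).2 fun w => ?_
    have hall : ∀ σ, act K M σ x = x := by
      intro σ
      obtain ⟨k, rfl⟩ := (mem_powers_iff_mem_zpowers (x := g)).2 (hg σ)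
      induction k with
      | zero => exact Units.ext (RingOfIntegers.ext rfl)
      | succ k ih =>
        show act K M (g ^ (k + 1)) x = x
        rw [pow_succ', act_mul, show act K M (g ^ k) x = x from ih, hfix]
    apply Real.eq_one_of_pos_of_log_eq_zero (Units.pos_at_place _ w)
    have h := sum_log_smul (K := K) w x
    rw [Fintype.sum_equiv (Equiv.inv _) (fun σ => Real.log ((σ • w) ((x : 𝓞 M) : M)))
      (fun σ => Real.log (w ((act K M σ x : 𝓞 M) : M))) fun σ => by
        rw [log_act, Equiv.inv_apply, inv_inv]] at h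
    simp only [hall, Finset.sum_const, nsmul_eq_mul] at h
    exact (mul_eq_zero.1 h).resolve_left (by simp)
  have : Finite (delta K M g).ker :=
    Finite.of_injective _ (Subgroup.inclusion_injective hle)
  exact Subgroup.index_ne_zero_of_finite

end Places

end Fermat.Agent.Two.NormIndex

end
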